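import Fermat.Agent.FermatQuartic.Density
import Fermat.Agent.Root.SummaryRealDensity
import Mathlib.Topology.Order.IntermediateValue

/-!
# Real density on `L s (s² + L²) = q (q² + 1)`

Each smooth fibre is one real component, as `4 a³ + 27 b² = 27 L⁴ (L⁸ - 1)²`; the birational map to
it is continuous where `s ≠ 0`.
-/

set_option autoImplicit false
set_option linter.style.haveILetI false

noncomputable section

open WeierstrassCurve Filter Topology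
open FA.FermatQuartic (coefA coefB goodParameters finite_not_good OnChart)

namespace FA.FermatQuarticReal

/-- From the Weierstrass equation to the chart. -/
def toChart {K : Type*} [Field K] (t : K) (P : K × K) : K × K :=
  (P.2 * (t - t ^ 9) / (P.1 + t ^ 6) ^ 2 / (t - (t ^ 3 + (t - t ^ 9) / (P.1 + t ^ 6)) ^ 3),
    (t ^ 3 + (t - t ^ 9) / (P.1 + t ^ 6)) *
      (P.2 * (t - t ^ 9) / (P.1 + t ^ 6) ^ 2 / (t - (t ^ 3 + (t - t ^ 9) / (P.1 + t ^ 6)) ^ 3)))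

theorem sub_ninth_ne {K : Type*} [Field K] {t : K} (h0 : t ≠ 0) (h1 : t ^ 8 ≠ 1) :
    t - t ^ 9 ≠ 0 := by
  rw [show t - t ^ 9 = t * (1 - t ^ 8) by ring]
  exact mul_ne_zero h0 (sub_ne_zero.2 (Ne.symm h1))

theorem toChart_onChart {K : Type*} [Field K] {t : K} (h0 : t ≠ 0) (h1 : t ^ 8 ≠ 1) {P : K × K}
    (hP : P.2 ^ 2 = P.1 ^ 3 + coefA t * P.1 + coefB t) (hD : P.1 + t ^ 6 ≠ 0)
    (hne : t - (t ^ 3 + (t - t ^ 9) / (P.1 + t ^ 6)) ^ 3 ≠ 0) :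
    t * (toChart t P).1 * ((toChart t P).1 ^ 2 + t ^ 2) =
      (toChart t P).2 * ((toChart t P).2 ^ 2 + 1) := by
  obtain ⟨X, Y⟩ := P
  simp only at hP hD hne
  set A := t - t ^ 9 with hA
  have hA0 : A ≠ 0 := sub_ninth_ne h0 h1
  set D := X + t ^ 6 with hDdef
  set v := t ^ 3 + A / D with hv
  set s := Y * A / D ^ 2 / (t - v ^ 3) with hs
  show t * s * (s ^ 2 + t ^ 2) = v * s * ((v * s) ^ 2 + 1)
  have hYA : Y ^ 2 * A = D ^ 3 * t - (t ^ 3 * D + A) ^ 3 := by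
    rw [hP, hDdef, hA, coefA, coefB]; ring
  have key : s ^ 2 * (t - v ^ 3) = v - t ^ 3 := by
    have h1 : (Y * A / D ^ 2) ^ 2 = (v - t ^ 3) * (t - v ^ 3) := by
      rw [hv]; field_simp
      linear_combination A * hYA
    rw [hs, div_pow, sq (t - v ^ 3), h1]
    field_simp
  linear_combination s * key

/-- Its inverse. -/
def ofChart {K : Type*} [Field K] (t : K) (Q : K × K) : K × K :=
  ((t - t ^ 9) / (Q.2 / Q.1 - t ^ 3) - t ^ 6,
    Q.1 * (t - (Q.2 / Q.1) ^ 3) * ((t - t ^ 9) / (Q.2 / Q.1 - t ^ 3)) ^ 2 / (t - t ^ 9))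

theorem ofChart_toChart {K : Type*} [Field K] {t : K} (h0 : t ≠ 0) (h1 : t ^ 8 ≠ 1) {P : K × K}
    (hD : P.1 + t ^ 6 ≠ 0) (hne : t - (t ^ 3 + (t - t ^ 9) / (P.1 + t ^ 6)) ^ 3 ≠ 0)
    (hs : (toChart t P).1 ≠ 0) : ofChart t (toChart t P) = P := by
  have hA0 := sub_ninth_ne h0 h1
  have hv : (toChart t P).2 / (toChart t P).1 = t ^ 3 + (t - t ^ 9) / (P.1 + t ^ 6) := by
    simp only [toChart] at hs ⊢
    rw [mul_div_cancel_right₀ _ hs]
  refine Prod.ext ?_ ?_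
  · simp only [ofChart, hv, add_sub_cancel_left, div_div_cancel₀ hA0, add_sub_cancel_right]
  · simp only [ofChart, hv, add_sub_cancel_left, div_div_cancel₀ hA0]
    simp only [toChart]
    rw [div_mul_cancel₀ _ hne, div_mul_cancel₀ _ (pow_ne_zero _ hD), mul_div_cancel_right₀ _ hA0]

theorem ofChart_spec {t : ℝ} (h0 : t ≠ 0) (h1 : t ^ 8 ≠ 1) {s q : ℝ} (hs : s ≠ 0)
    (h : t * s * (s ^ 2 + t ^ 2) = q * (q ^ 2 + 1)) :
    let P := ofChart t (s, q)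
    P.2 ^ 2 = P.1 ^ 3 + coefA t * P.1 + coefB t ∧ P.1 + t ^ 6 ≠ 0 ∧
      t - (t ^ 3 + (t - t ^ 9) / (P.1 + t ^ 6)) ^ 3 ≠ 0 ∧ toChart t P = (s, q) := by
  intro P
  set A := t - t ^ 9 with hA
  have hA0 : A ≠ 0 := sub_ninth_ne h0 h1
  set v := q / s with hv
  have key : s ^ 2 * (t - v ^ 3) = v - t ^ 3 := by
    rw [hv]; field_simp
    linear_combination h
  have hv3 : v - t ^ 3 ≠ 0 := by
    intro e
    rw [e, mul_eq_zero, or_iff_right (pow_ne_zero _ hs)] at key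
    refine hA0 ?_
    rw [sub_eq_zero.1 e] at key
    rw [hA]; linear_combination key
  have hne : t - v ^ 3 ≠ 0 := fun e => hv3 (by rw [← key, e, mul_zero])
  have hD : P.1 + t ^ 6 = A / (v - t ^ 3) := by
    simp only [P, ofChart, ← hv, ← hA]; ring
  have hu : t ^ 3 + A / (P.1 + t ^ 6) = v := by
    rw [hD, div_div_cancel₀ hA0, add_sub_cancel]
  refine ⟨?_, by rw [hD]; exact div_ne_zero hA0 hv3, by rw [hu]; exact hne, ?_⟩
  · have hX : P.1 = A / (v - t ^ 3) - t ^ 6 := rfl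
    have hY : P.2 = s * (t - v ^ 3) * (A / (v - t ^ 3)) ^ 2 / A := rfl
    have h2 : P.2 ^ 2 * A = (A / (v - t ^ 3)) ^ 3 * (t - v ^ 3) := by
      rw [hY, div_pow, mul_pow, mul_pow, show s ^ 2 * (t - v ^ 3) ^ 2 =
        (s ^ 2 * (t - v ^ 3)) * (t - v ^ 3) by ring, key]
      field_simp
    refine mul_right_cancel₀ hA0 (h2.trans ?_)
    set D := A / (v - t ^ 3) with hDdef
    have hvD : v * D = t ^ 3 * D + A := by
      rw [hDdef]; field_simp; ring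
    rw [hX, hA, coefA, coefB]
    linear_combination -((v * D) ^ 2 + v * D * (t ^ 3 * D + A) + (t ^ 3 * D + A) ^ 2) * hvD
  · simp only [toChart, ← hA, hu]
    have hY : P.2 = s * (t - v ^ 3) * (A / (v - t ^ 3)) ^ 2 / A := rfl
    rw [hD, hY]
    have e : s * (t - v ^ 3) * (A / (v - t ^ 3)) ^ 2 / A * A / (A / (v - t ^ 3)) ^ 2 /
        (t - v ^ 3) = s := by field_simp
    rw [e, hv, div_mul_cancel₀ _ hs]

/-- **Discriminant**: one real component. -/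
theorem disc_pos {t : ℚ} (h0 : t ≠ 0) (h1 : t ^ 8 ≠ 1) :
    0 < 4 * coefA t ^ 3 + 27 * coefB t ^ 2 := by
  rw [show 4 * coefA t ^ 3 + 27 * coefB t ^ 2 = 27 * (t ^ 2) ^ 2 * (t ^ 8 - 1) ^ 2 by
    rw [coefA, coefB]; ring]
  exact mul_pos (mul_pos (by norm_num) (sq_pos_of_ne_zero (pow_ne_zero _ h0)))
    (sq_pos_of_ne_zero (sub_ne_zero.2 h1))

/-- **Density on a good fibre.** -/
theorem fibre_dense {t : ℚ} (h0 : t ≠ 0) (h1 : t ^ 8 ≠ 1) (hg : t ∈ goodParameters) {s q : ℝ}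
    (hs : s ≠ 0) (h : (t : ℝ) * s * (s ^ 2 + (t : ℝ) ^ 2) = q * (q ^ 2 + 1)) {ε : ℝ} (hε : 0 < ε) :
    {P : ℚ × ℚ | OnChart t P.1 P.2 ∧ |(P.1 : ℝ) - s| < ε ∧ |(P.2 : ℝ) - q| < ε}.Infinite := by
  classical
  have h0' : (t : ℝ) ≠ 0 := Rat.cast_ne_zero.2 h0
  have h1' : (t : ℝ) ^ 8 ≠ 1 := by exact_mod_cast h1
  obtain ⟨hW, hD, hne, heq⟩ := ofChart_spec h0' h1' hs h
  set P₀ := ofChart (t : ℝ) (s, q)
  -- continuity of the map
  have hc1 : ContinuousAt (fun P : ℝ × ℝ => P.1 + (t : ℝ) ^ 6) P₀ := by fun_prop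
  have hcu : ContinuousAt
      (fun P : ℝ × ℝ => (t : ℝ) - ((t : ℝ) ^ 3 + ((t : ℝ) - (t : ℝ) ^ 9) / (P.1 + (t : ℝ) ^ 6)) ^ 3)
      P₀ :=
    continuousAt_const.sub ((continuousAt_const.add (continuousAt_const.div hc1 hD)).pow 3)
  have hcs : ContinuousAt (fun P => (toChart (t : ℝ) P).1) P₀ :=
    ((continuousAt_snd.mul continuousAt_const).div (hc1.pow 2) (pow_ne_zero _ hD)).div hcu hne
  have hcq : ContinuousAt (fun P => (toChart (t : ℝ) P).2) P₀ :=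
    (continuousAt_const.add (continuousAt_const.div hc1 hD)).mul hcs
  have hnear : ∀ᶠ P in 𝓝 P₀, P.1 + (t : ℝ) ^ 6 ≠ 0 ∧
      (t : ℝ) - ((t : ℝ) ^ 3 + ((t : ℝ) - (t : ℝ) ^ 9) / (P.1 + (t : ℝ) ^ 6)) ^ 3 ≠ 0 ∧
      (toChart (t : ℝ) P).1 ≠ 0 ∧ |(toChart (t : ℝ) P).1 - s| < ε ∧
      |(toChart (t : ℝ) P).2 - q| < ε := by
    have e₁ : (toChart (t : ℝ) P₀).1 = s := by rw [heq]
    have e₂ : (toChart (t : ℝ) P₀).2 = q := by rw [heq]
    refine (hc1.eventually_ne hD).and ((hcu.eventually_ne hne).and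
      ((hcs.eventually_ne (e₁ ▸ hs)).and (?_ : ∀ᶠ P in 𝓝 P₀, _)))
    refine Filter.Eventually.and ?_ ?_
    · exact ((hcs.sub continuousAt_const).abs.eventually_lt_const (by simpa [e₁] using hε))
    · exact ((hcq.sub continuousAt_const).abs.eventually_lt_const (by simpa [e₂] using hε))
  obtain ⟨δ, hδ, hball⟩ := Metric.mem_nhds_iff.1 hnear
  -- the rational points
  haveI : (⟨0, 0, 0, coefA t, coefB t⟩ : WeierstrassCurve ℚ).IsElliptic := ⟨isUnit_iff_ne_zero.2 (by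
    have := (disc_pos h0 h1).ne'
    simp [WeierstrassCurve.Δ, WeierstrassCurve.b₂, WeierstrassCurve.b₄, WeierstrassCurve.b₆,
      WeierstrassCurve.b₈]
    intro e; apply this; linear_combination (-1 / 16 : ℚ) * e)⟩
  haveI : Infinite {P : ℚ × ℚ | P.2 ^ 2 = P.1 ^ 3 + coefA t * P.1 + coefB t} := hg.to_subtype
  haveI : Infinite (⟨0, 0, 0, coefA t, coefB t⟩ : WeierstrassCurve ℚ).toAffine.Point := by
    refine Infinite.of_injective
      (fun P : {P : ℚ × ℚ | P.2 ^ 2 = P.1 ^ 3 + coefA t * P.1 + coefB t} =>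
      .some P.1.1 P.1.2 (Affine.equation_iff_nonsingular.mp ((Affine.equation_iff _ _).mpr (by
        simp; exact P.2)))) fun P Q e => ?_
    simp only [Affine.Point.some.injEq] at e
    exact Subtype.ext (Prod.ext e.1 e.2)
  have hd := FA.Summary.rationalPoints_dense_all (A := coefA t) (B := coefB t) (disc_pos h0 h1)
    (x := P₀.1) (y := P₀.2) (by
      rw [hW]; simp [coefA, coefB]) hδ
  have hin : ∀ P ∈ {p : ℚ × ℚ | p.2 ^ 2 = p.1 ^ 3 + coefA t * p.1 + coefB t ∧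
      |(p.1 : ℝ) - P₀.1| < δ ∧ |(p.2 : ℝ) - P₀.2| < δ},
      (((P.1 : ℝ), (P.2 : ℝ)) : ℝ × ℝ).1 + (t : ℝ) ^ 6 ≠ 0 ∧
      P.1 + t ^ 6 ≠ 0 ∧ t - (t ^ 3 + (t - t ^ 9) / (P.1 + t ^ 6)) ^ 3 ≠ 0 ∧
      (toChart t P).1 ≠ 0 ∧ |((toChart t P).1 : ℝ) - s| < ε ∧ |((toChart t P).2 : ℝ) - q| < ε := by
    rintro P ⟨-, hX, hY⟩
    have hm := hball (show (((P.1 : ℝ), (P.2 : ℝ)) : ℝ × ℝ) ∈ Metric.ball P₀ δ by
      rw [Metric.mem_ball, Prod.dist_eq, Real.dist_eq, Real.dist_eq]; exact max_lt hX hY)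
    simp only [Set.mem_ofPred_eq] at hm
    obtain ⟨m₁, m₂, m₃, m₄, m₅⟩ := hm
    have ec : toChart (t : ℝ) ((P.1 : ℝ), (P.2 : ℝ)) =
        (((toChart t P).1 : ℝ), ((toChart t P).2 : ℝ)) := by
      simp [toChart]
    rw [ec] at m₃ m₄ m₅
    exact ⟨m₁, by exact_mod_cast m₁, by exact_mod_cast m₂, Rat.cast_ne_zero.1 m₃, m₄, m₅⟩
  refine Set.infinite_of_injOn_mapsTo (f := toChart t) ?_ ?_ hd
  · intro P hP Q hQ e
    obtain ⟨-, a₁, a₂, a₃, -, -⟩ := hin P hP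
    obtain ⟨-, b₁, b₂, b₃, -, -⟩ := hin Q hQ
    rw [← ofChart_toChart h0 h1 a₁ a₂ a₃, ← ofChart_toChart h0 h1 b₁ b₂ b₃, e]
  · intro P hP
    obtain ⟨-, a₁, a₂, -, a₄, a₅⟩ := hin P hP
    exact ⟨toChart_onChart h0 h1 hP.1 a₁ a₂, a₄, a₅⟩

/-- **Real density in the chart.** -/
theorem chart_dense {L s q : ℝ} (h : L * s * (s ^ 2 + L ^ 2) = q * (q ^ 2 + 1)) {ε : ℝ}
    (hε : 0 < ε) :
    {P : ℚ × ℚ × ℚ | OnChart P.1 P.2.1 P.2.2 ∧ |(P.1 : ℝ) - L| < ε ∧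
      |(P.2.1 : ℝ) - s| < ε ∧ |(P.2.2 : ℝ) - q| < ε}.Infinite := by
  classical
  have hmono : StrictMono fun u : ℝ => u * (u ^ 2 + 1) := fun a b hab => by
    show a * (a ^ 2 + 1) < b * (b ^ 2 + 1)
    nlinarith [mul_pos (sub_pos.2 hab) (show (0 : ℝ) < a ^ 2 + a * b + b ^ 2 + 1 by
      nlinarith [sq_nonneg (a + b), sq_nonneg a, sq_nonneg b])]
  have hmem : L * s * (s ^ 2 + L ^ 2) ∈
      Set.Ioo ((q - ε / 2) * ((q - ε / 2) ^ 2 + 1)) ((q + ε / 2) * ((q + ε / 2) ^ 2 + 1)) := by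
    rw [h]; exact ⟨hmono (by linarith), hmono (by linarith)⟩
  obtain ⟨δ, hδ, hball⟩ := Metric.mem_nhds_iff.1
    ((show Continuous fun P : ℝ × ℝ => P.1 * P.2 * (P.2 ^ 2 + P.1 ^ 2) by fun_prop).continuousAt
      (x := (L, s)) (isOpen_Ioo.mem_nhds hmem))
  set η := min δ (ε / 2)
  have hη : 0 < η := lt_min hδ (half_pos hε)
  have hηδ : η ≤ δ := min_le_left _ _
  have hηε : η ≤ ε / 2 := min_le_right _ _
  -- a good rational parameter near `L`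
  have hfin : ({t : ℚ | t = 0} ∪ {t | t ^ 8 = 1} ∪ goodParametersᶜ).Finite := by
    refine ((Set.finite_singleton 0).union ?_).union finite_not_good
    refine (Polynomial.finite_setOfPred_isRoot (p := (Polynomial.X : Polynomial ℚ) ^ 8 -
      Polynomial.C 1) (Polynomial.X_pow_sub_C_ne_zero (by norm_num) 1)).subset fun t ht => ?_
    show Polynomial.IsRoot _ t
    simp only [Set.mem_ofPred_eq] at ht
    simp [ht]
  obtain ⟨a, ha₁, ha₂⟩ := exists_rat_btwn (show L - η < L by linarith)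
  obtain ⟨b, hb₁, hb₂⟩ := exists_rat_btwn (show L < L + η by linarith)
  have hab : a < b := by exact_mod_cast ha₂.trans hb₁
  obtain ⟨t, ⟨hta, htb⟩, hnot⟩ := ((Set.Ioo_infinite hab).sdiff hfin).nonempty
  simp only [Set.mem_union, Set.mem_ofPred_eq, Set.mem_compl_iff, not_or, not_not] at hnot
  have hta' : (a : ℝ) < t := Rat.cast_lt.2 hta
  have htb' : (t : ℝ) < b := Rat.cast_lt.2 htb
  obtain ⟨s', hs', hs'0⟩ : ∃ s' : ℝ, |s' - s| < η ∧ s' ≠ 0 := by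
    by_cases hs : s = 0
    · exact ⟨η / 2, by rw [hs, sub_zero, abs_of_pos (half_pos hη)]; linarith, (half_pos hη).ne'⟩
    · exact ⟨s, by simpa using hη, hs⟩
  have htL : |(t : ℝ) - L| < η := abs_lt.2 ⟨by linarith, by linarith⟩
  have hm := hball (show (((t : ℝ), s') : ℝ × ℝ) ∈ Metric.ball (L, s) δ by
    rw [Metric.mem_ball, Prod.dist_eq, Real.dist_eq, Real.dist_eq]
    exact (max_lt htL hs').trans_le hηδ)
  simp only [Set.mem_preimage] at hm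
  obtain ⟨q', hq', hq'e⟩ := intermediate_value_Ioo (show q - ε / 2 ≤ q + ε / 2 by linarith)
    (f := fun u : ℝ => u * (u ^ 2 + 1)) (by fun_prop) hm
  refine Set.infinite_of_injOn_mapsTo (f := fun P : ℚ × ℚ => (t, P.1, P.2)) ?_ ?_
    (fibre_dense hnot.1.1 hnot.1.2 hnot.2 hs'0 (q := q') hq'e.symm (half_pos hε))
  · intro P _ Q _ e
    simpa using e
  · rintro ⟨x, y⟩ ⟨hP, hx, hy⟩
    simp only at hx hy
    refine ⟨hP, by show |(t : ℝ) - L| < ε; linarith, ?_, ?_⟩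
    · show |(x : ℝ) - s| < ε
      have := abs_sub_le (x : ℝ) s' s
      linarith
    · show |(y : ℝ) - q| < ε
      have := abs_sub_le (y : ℝ) q' q
      have : |q' - q| < ε / 2 := abs_lt.2 ⟨by linarith [hq'.1], by linarith [hq'.2]⟩
      linarith

end FA.FermatQuarticReal
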