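import Fermat.Agent.FermatQuarticReal.Chart
import Fermat.Agent.FermatQuartic.Quartic

/-!
# Real density on `x⁴ + y⁴ = z⁴ + w⁴`

Scaling carries the chart to `w ≠ y`; four symmetries and the diagonal near the origin cover the
rest.
-/

set_option autoImplicit false
set_option linter.style.haveILetI false

noncomputable section

open Filter Topology
open FA.FermatQuartic (OnQuartic OnChart)

namespace FA.FermatQuarticReal

/-- The point with scale `d` over a chart point. -/
def cone {K : Type*} [Field K] (d L s q : K) : Fin 4 → K :=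
  ![d * ((s + L) / 2), d * ((q - 1) / 2), d * ((s - L) / 2), d * ((q + 1) / 2)]

theorem cone_onQuartic {K : Type*} [Field K] [CharZero K] {d L s q : K}
    (h : L * s * (s ^ 2 + L ^ 2) = q * (q ^ 2 + 1)) : OnQuartic (cone d L s q) := by
  simp [OnQuartic, cone]
  linear_combination (d ^ 4 / 2) * h

/-- The rational zeros near `v`. -/
def nearSet (v : Fin 4 → ℝ) (ε : ℝ) : Set (Fin 4 → ℚ) :=
  {w | OnQuartic w ∧ ∀ i, |(w i : ℝ) - v i| < ε}

theorem infinite_near_of_ne {v : Fin 4 → ℝ} (hv : OnQuartic v) (hne : v 3 - v 1 ≠ 0) {ε : ℝ}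
    (hε : 0 < ε) : (nearSet v ε).Infinite := by
  set d := v 3 - v 1 with hd
  set L := (v 0 - v 2) / d with hL
  set s := (v 0 + v 2) / d with hs
  set q := (v 3 + v 1) / d with hq
  simp only [OnQuartic] at hv
  have hchart : L * s * (s ^ 2 + L ^ 2) = q * (q ^ 2 + 1) := by
    simp only [hL, hs, hq]
    field_simp
    rw [hd]
    linear_combination 2 * hv
  have hvec : cone d L s q = v := by
    funext i
    fin_cases i <;> simp [cone, hL, hs, hq] <;> field_simp <;> (try rw [hd]) <;> ring
  obtain ⟨δ, hδ, hball⟩ := Metric.continuousAt_iff.1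
    ((show Continuous fun P : ℝ × ℝ × ℝ × ℝ => cone P.1 P.2.1 P.2.2.1 P.2.2.2 by
      unfold cone; fun_prop).continuousAt (x := (d, L, s, q))) ε hε
  obtain ⟨a, ha₁, ha₂⟩ := exists_rat_btwn (show d - δ < d by linarith)
  obtain ⟨b, hb₁, hb₂⟩ := exists_rat_btwn (show d < d + δ by linarith)
  have hab : a < b := by exact_mod_cast ha₂.trans hb₁
  obtain ⟨d', ⟨hda, hdb⟩, hd'0⟩ :=
    ((Set.Ioo_infinite hab).sdiff (Set.finite_singleton (0 : ℚ))).nonempty
  have hdd : |(d' : ℝ) - d| < δ := by
    have := Rat.cast_lt (K := ℝ).2 hda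
    have := Rat.cast_lt (K := ℝ).2 hdb
    exact abs_lt.2 ⟨by linarith, by linarith⟩
  refine Set.infinite_of_injOn_mapsTo (f := fun P : ℚ × ℚ × ℚ => cone d' P.1 P.2.1 P.2.2) ?_ ?_
    (chart_dense hchart hδ)
  · rintro ⟨x, y, z⟩ _ ⟨x', y', z'⟩ _ e
    have e₀ := congrFun e 0
    have e₁ := congrFun e 1
    have e₂ := congrFun e 2
    simp [cone, show d' ≠ 0 from hd'0] at e₀ e₁ e₂
    ext <;> simp <;> linarith
  · rintro ⟨x, y, z⟩ ⟨hP, hx, hy, hz⟩
    simp only at hx hy hz
    refine ⟨cone_onQuartic hP, fun i => ?_⟩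
    have hm := @hball ((d' : ℝ), (x : ℝ), (y : ℝ), (z : ℝ)) (by
      simp only [Prod.dist_eq, Real.dist_eq]
      exact max_lt hdd (max_lt hx (max_lt hy hz)))
    simp only [hvec] at hm
    have hi := lt_of_le_of_lt (dist_le_pi_dist _ _ i) hm
    rw [Real.dist_eq] at hi
    refine lt_of_eq_of_lt ?_ hi
    congr 2
    fin_cases i <;> simp [cone]

/-- **Real density on the quartic.** -/
theorem infinite_near {v : Fin 4 → ℝ} (hv : OnQuartic v) {ε : ℝ} (hε : 0 < ε) :
    (nearSet v ε).Infinite := by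
  have main : ∀ (τ : (Fin 4 → ℚ) → Fin 4 → ℚ) (σ : (Fin 4 → ℝ) → Fin 4 → ℝ),
      Function.Injective τ → (∀ w, OnQuartic w → OnQuartic (τ w)) →
      (∀ w : Fin 4 → ℚ, (∀ i, |(w i : ℝ) - σ v i| < ε) → ∀ i, |(τ w i : ℝ) - v i| < ε) →
      OnQuartic (σ v) → σ v 3 - σ v 1 ≠ 0 → (nearSet v ε).Infinite := fun τ σ hτ hτq hnear hq hne =>
    Set.infinite_of_injOn_mapsTo hτ.injOn (fun w hw => ⟨hτq w hw.1, hnear w hw.2⟩)
      (infinite_near_of_ne hq hne hε)
  by_cases ha : v 3 - v 1 = 0
  swap
  · exact infinite_near_of_ne hv ha hε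
  by_cases hb : v 3 + v 1 = 0
  swap
  · refine main (fun w => ![w 0, -w 1, w 2, w 3]) (fun w => ![w 0, -w 1, w 2, w 3]) ?_ ?_ ?_ ?_
      (by simpa using hb)
    · intro a b e
      funext i
      have := congrFun e i
      fin_cases i <;> simpa using this
    · intro w hw; simp [OnQuartic] at hw ⊢; linear_combination hw
    · intro w hw i
      have h0 := hw 0; have h1 := hw 1; have h2 := hw 2; have h3 := hw 3
      simp at h0 h1 h2 h3
      fin_cases i <;> simp <;> rw [abs_lt] at * <;> constructor <;> linarith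
    · simp [OnQuartic] at hv ⊢; linear_combination hv
  by_cases hc : v 2 - v 0 = 0
  swap
  · refine main (fun w => ![w 1, w 0, w 3, w 2]) (fun w => ![w 1, w 0, w 3, w 2]) ?_ ?_ ?_ ?_
      (by simpa using hc)
    · intro a b e
      funext i
      have k0 := congrFun e 0; have k1 := congrFun e 1; have k2 := congrFun e 2
      have k3 := congrFun e 3
      simp at k0 k1 k2 k3
      fin_cases i <;> simp <;> linarith
    · intro w hw; simp [OnQuartic] at hw ⊢; linear_combination hw
    · intro w hw i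
      have h0 := hw 0; have h1 := hw 1; have h2 := hw 2; have h3 := hw 3
      simp at h0 h1 h2 h3
      fin_cases i <;> simp <;> rw [abs_lt] at * <;> constructor <;> linarith
    · simp [OnQuartic] at hv ⊢; linear_combination hv
  by_cases he : v 2 + v 0 = 0
  swap
  · refine main (fun w => ![-w 1, w 0, w 3, w 2]) (fun w => ![w 1, -w 0, w 3, w 2]) ?_ ?_ ?_ ?_
      (by simpa using he)
    · intro a b e
      funext i
      have k0 := congrFun e 0; have k1 := congrFun e 1; have k2 := congrFun e 2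
      have k3 := congrFun e 3
      simp at k0 k1 k2 k3
      fin_cases i <;> simp <;> linarith
    · intro w hw; simp [OnQuartic] at hw ⊢; linear_combination hw
    · intro w hw i
      have h0 := hw 0; have h1 := hw 1; have h2 := hw 2; have h3 := hw 3
      simp at h0 h1 h2 h3
      fin_cases i <;> simp <;> rw [abs_lt] at * <;> constructor <;> linarith
    · simp [OnQuartic] at hv ⊢; linear_combination hv
  -- the origin
  have hv0 : ∀ i, v i = 0 := by
    intro i
    fin_cases i <;> simp <;> linarith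
  obtain ⟨b, hb0, hbε⟩ := exists_rat_btwn hε
  have hb' : (0 : ℚ) < b := by exact_mod_cast hb0
  refine Set.infinite_of_injOn_mapsTo (f := fun c : ℚ => fun _ : Fin 4 => c)
    (s := Set.Ioo 0 b) ?_ ?_
    (Set.Ioo_infinite hb')
  · exact fun a _ c _ e => congrFun e 0
  · intro c hc
    refine ⟨by simp [OnQuartic], fun i => ?_⟩
    have := Rat.cast_pos (K := ℝ).2 hc.1
    have := Rat.cast_lt (K := ℝ).2 hc.2
    rw [hv0, sub_zero, abs_of_pos (by assumption : (0 : ℝ) < c)]
    linarith

end FA.FermatQuarticReal
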